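/-
M59 / Sink B, cell [PULL-API] (helper15).  Prefix `m59pl_`.

THE FUNCTION IDENTITIES behind `α_q^* ∘ T_ℓ = T_ℓ ∘ α_q^*` and `β_q^* ∘ T_ℓ = T_ℓ ∘ β_q^*`
(`T_ℓ f = N_{α_ℓ} (β_ℓ f)`, `s44hr_T`): for EVERY level `M`, every `q ≠ 0` and every prime `ℓ ∤ M q`

* `m59pl_T_beta`  : `β_q (T_ℓ^{M} f) = T_ℓ^{M q} (β_q f)`,
* `m59pl_T_alpha` : `α_q (T_ℓ^{M} f) = T_ℓ^{M q} (α_q f)`.

Both are norm base change (`s35pe_normAlong_baseChange`) in the square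
`F̄_M ⊂ F̄_{M ℓ}`, `F̄_{M q} ⊂ F̄_{M q ℓ}` (equal degrees `ℓ + 1`, `ssm_al_relfinrank`), with vertical maps
`β_q` resp. `α_q`.  The generation hypothesis is `s35pe_gen_alpha` for `β_q`; for `α_q`
(`F̄_{M q ℓ} = F̄_{M q} · F̄_{M ℓ}`) it is obtained through the Atkin–Lehner endomorphism `W_ℓ` of
`F̄_{M q ℓ}` (`s35pe_exists_W`).  `q` need not be prime and may divide `M`.
-/
import Mathlib
import Fermat.Agent.S35.PEquiv.Inst
import Fermat.Agent.S44.HeckeRes.RepHecke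

set_option autoImplicit false
set_option linter.unusedSectionVars false
set_option linter.unusedVariables false
set_option linter.style.haveILetI false
set_option synthInstance.maxHeartbeats 400000
set_option maxHeartbeats 1000000

noncomputable section

namespace Fermat.Agent.M59

open AlgebraicCurve ModularCurve Module
open Fermat.Agent.S24 Fermat.Agent.JT3 Fermat.Agent.SS Fermat.Agent.S35 Fermat.Agent.S44

/-! ### the ambient square -/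

section Ambient

variable {K Ω : Type*} [Field K] [Field Ω] [Algebra K Ω]
variable (e eℓ : Ω →ₐ[K] Ω) (hcomm : ∀ x, e (eℓ x) = eℓ (e x))
variable (F₀ F₁ F₂ F₃ : IntermediateField K Ω)
variable (h01 : F₀ ≤ F₁) (h23 : F₂ ≤ F₃)
variable (he02 : ∀ x ∈ F₀, e x ∈ F₂) (he13 : ∀ x ∈ F₁, e x ∈ F₃)
variable (hℓ01 : ∀ x ∈ F₀, eℓ x ∈ F₁) (hℓ23 : ∀ x ∈ F₂, eℓ x ∈ F₃)

include hcomm in
/-- norm base change in the ambient square: `e (N_{F₁/F₀} (eℓ f)) = N_{F₃/F₂} (eℓ (e f))`. -/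
theorem m59pl_ambient {d : ℕ} (hd : 0 < d)
    (hd01 : IntermediateField.relfinrank F₀ F₁ = d)
    (hd23 : IntermediateField.relfinrank F₂ F₃ = d)
    (hgen : ∀ S : Subfield ↥F₃, (∀ x : ↥F₂, IntermediateField.inclusion h23 x ∈ S) →
      (∀ y : ↥F₁, s35pe_res e F₁ F₃ he13 y ∈ S) → S = ⊤) (f : ↥F₀) :
    s35pe_res e F₀ F₂ he02
        (s35pe_normAlong (IntermediateField.inclusion h01) (s35pe_res eℓ F₀ F₁ hℓ01 f)) =
      s35pe_normAlong (IntermediateField.inclusion h23)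
        (s35pe_res eℓ F₂ F₃ hℓ23 (s35pe_res e F₀ F₂ he02 f)) := by
  have hbc := s35pe_normAlong_baseChange (K := K)
    (IntermediateField.inclusion h01) (IntermediateField.inclusion h23)
    (s35pe_res e F₀ F₂ he02 : ↥F₀ →+* ↥F₂) (s35pe_res e F₁ F₃ he13 : ↥F₁ →+* ↥F₃)
    (fun x => Subtype.ext rfl)
    (by rw [s35pe_finrankAlong_inclusion, hd01]; exact hd)
    (by rw [s35pe_finrankAlong_inclusion, s35pe_finrankAlong_inclusion, hd01, hd23])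
    hgen (s35pe_res eℓ F₀ F₁ hℓ01 f)
  have hb : (s35pe_res e F₀ F₂ he02 : ↥F₀ →+* ↥F₂)
      (s35pe_normAlong (IntermediateField.inclusion h01) (s35pe_res eℓ F₀ F₁ hℓ01 f)) =
      s35pe_res e F₀ F₂ he02
        (s35pe_normAlong (IntermediateField.inclusion h01) (s35pe_res eℓ F₀ F₁ hℓ01 f)) := rfl
  rw [← hb, ← hbc]
  congr 1
  exact Subtype.ext (hcomm f.1)

end Ambient

section Levels

variable (M q ℓ : ℕ) [NeZero M] [NeZero q] [NeZero ℓ]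

theorem m59pl_le13 : s35pe_FL (M * ℓ) ≤ s35pe_FL (M * q * ℓ) :=
  s35pe_FL_mono ⟨q, by ring⟩

theorem m59pl_expand13 : ∀ x ∈ s35pe_FL (M * ℓ), qExpandAlgHomC Kbar q x ∈ s35pe_FL (M * q * ℓ) :=
  fun _ hx => s35pe_FL_expand (dvd_of_eq (by ring)) hx

/-- generators of the top field, `β`-case -/
theorem m59pl_top_gen_beta :
    ∀ x ∈ ({jqModC Kbar, qExpand Kbar (M * q * ℓ) (jqModC Kbar)} : Set (LaurentSeries Kbar)),
      x ∈ s35pe_FL (M * q) ∨ ∃ y ∈ s35pe_FL (M * ℓ), qExpandAlgHomC Kbar q y = x := by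
  intro x hx
  rcases hx with rfl | rfl
  · exact Or.inl (s35pe_j_mem (M * q))
  · refine Or.inr ⟨qExpand Kbar (M * ℓ) (jqModC Kbar), s35pe_jd_mem (M * ℓ) dvd_rfl, ?_⟩
    rw [qExpandAlgHomC_apply, qExpand_qExpand]
    exact qExpand_congr (by ring) _

variable (hℓ : ℓ.Prime)

include hℓ in
/-- **generation, `α`-case**: a subfield of `F̄_{M q ℓ}` containing `F̄_{M q}` and `F̄_{M ℓ}` is
everything. -/
theorem m59pl_gen_alpha (hℓM : ¬ ℓ ∣ M * q) (S : Subfield ↥(s35pe_FL (M * q * ℓ)))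
    (h2 : ∀ x : ↥(s35pe_FL (M * q)),
      IntermediateField.inclusion (s35pe_FL_mono (Dvd.intro ℓ rfl)) x ∈ S)
    (h1 : ∀ y : ↥(s35pe_FL (M * ℓ)),
      s35pe_res (AlgHom.id Kbar (LaurentSeries Kbar)) (s35pe_FL (M * ℓ)) (s35pe_FL (M * q * ℓ))
        (fun _ hx => m59pl_le13 M q ℓ hx) y ∈ S) :
    S = ⊤ := by
  have h23 : s35pe_FL (M * q) ≤ s35pe_FL (M * q * ℓ) := s35pe_FL_mono (Dvd.intro ℓ rfl)
  have hℓ23 : ∀ x ∈ s35pe_FL (M * q), qExpandAlgHomC Kbar ℓ x ∈ s35pe_FL (M * q * ℓ) :=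
    fun _ hx => s35pe_FL_expand dvd_rfl hx
  obtain ⟨W', hW1, hW2⟩ := s35pe_exists_W ℓ hℓ (M * q) hℓM (s35pe_FL (M * q * ℓ)) rfl h23 hℓ23
  set S' : Subfield ↥(s35pe_FL (M * q * ℓ)) :=
    S.map (W' : ↥(s35pe_FL (M * q * ℓ)) →+* ↥(s35pe_FL (M * q * ℓ))) with hS'
  have hmem : ∀ c, c ∈ S → W' c ∈ S' := fun c hc => ⟨c, hc, rfl⟩
  have hK : ∀ c : Kbar, algebraMap Kbar ↥(s35pe_FL (M * q * ℓ)) c ∈ S' := fun c => by
    have h := hmem _ (h2 (algebraMap Kbar ↥(s35pe_FL (M * q)) c))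
    rwa [AlgHom.commutes, AlgHom.commutes] at h
  have hS'top : S' = ⊤ := by
    refine s35pe_subfield_eq_top (s35pe_FL_adjoin_pair (M * q * ℓ)) S' hK fun x hx h => ?_
    rcases hx with rfl | rfl
    · -- `j = W' (j(X^ℓ))`, `j(X^ℓ) ∈ F̄_{M ℓ}`
      have hj2 : jqModC Kbar ∈ s35pe_FL (M * q) := s35pe_j_mem (M * q)
      have hjℓ : qExpand Kbar ℓ (jqModC Kbar) ∈ s35pe_FL (M * ℓ) :=
        s35pe_jd_mem (M * ℓ) (Dvd.intro_left M rfl)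
      have e1 : (⟨jqModC Kbar, h⟩ : ↥(s35pe_FL (M * q * ℓ))) =
          W' ⟨qExpandAlgHomC Kbar ℓ (jqModC Kbar), hℓ23 _ hj2⟩ := (hW2 _ hj2).symm
      rw [e1]
      refine hmem _ ?_
      have := h1 ⟨qExpand Kbar ℓ (jqModC Kbar), hjℓ⟩
      exact this
    · -- `j(X^{M q ℓ}) = W' (j(X^{M q}))`
      have hj2 : qExpand Kbar (M * q) (jqModC Kbar) ∈ s35pe_FL (M * q) :=
        s35pe_jd_mem (M * q) dvd_rfl
      have e1 : (⟨qExpand Kbar (M * q * ℓ) (jqModC Kbar), h⟩ : ↥(s35pe_FL (M * q * ℓ))) =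
          W' ⟨qExpand Kbar (M * q) (jqModC Kbar), h23 hj2⟩ := by
        rw [hW1 _ hj2]
        apply Subtype.ext
        show qExpand Kbar (M * q * ℓ) (jqModC Kbar) =
          qExpandAlgHomC Kbar ℓ (qExpand Kbar (M * q) (jqModC Kbar))
        rw [qExpandAlgHomC_apply, qExpand_qExpand]
        exact qExpand_congr (by ring) _
      rw [e1]
      exact hmem _ (h2 ⟨_, hj2⟩)
  rw [eq_top_iff]
  intro z _
  have hz : W' z ∈ S' := by rw [hS'top]; trivial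
  obtain ⟨c, hc, hcz⟩ := hz
  have : c = z :=
    (W' : ↥(s35pe_FL (M * q * ℓ)) →+* ↥(s35pe_FL (M * q * ℓ))).injective hcz
  rwa [← this]

include hℓ in
/-- **`β_q ∘ T_ℓ = T_ℓ ∘ β_q` on functions.** -/
theorem m59pl_T_beta (hℓM : ¬ ℓ ∣ M * q) (f : Fbar M) :
    heckeBetaBar Kbar M q (s44hr_T M ℓ f) = s44hr_T (M * q) ℓ (heckeBetaBar Kbar M q f) := by
  have hℓM' : ¬ ℓ ∣ M := fun h => hℓM (h.mul_right q)
  have h23 : s35pe_FL (M * q) ≤ s35pe_FL (M * q * ℓ) := s35pe_FL_mono (Dvd.intro ℓ rfl)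
  rw [s44hr_T_apply, s44hr_T_apply, s35pe_alpha_eq, s35pe_alpha_eq, s35pe_beta_eq M q,
    s35pe_beta_eq M ℓ, s35pe_beta_eq (M * q) ℓ]
  exact m59pl_ambient (qExpandAlgHomC Kbar q) (qExpandAlgHomC Kbar ℓ) (s35pe_qExpand_comm q ℓ)
    (s35pe_FL M) (s35pe_FL (M * ℓ)) (s35pe_FL (M * q)) (s35pe_FL (M * q * ℓ)) _ h23 _
    (m59pl_expand13 M q ℓ) _ _ (Nat.succ_pos ℓ)
    (s35pe_relfinrank_alpha ℓ hℓ M hℓM') (s35pe_relfinrank_alpha ℓ hℓ (M * q) hℓM)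
    (fun S h2 h1 => s35pe_gen_alpha (qExpandAlgHomC Kbar q) (s35pe_FL (M * ℓ)) (s35pe_FL (M * q))
      (s35pe_FL (M * q * ℓ)) h23 (m59pl_expand13 M q ℓ) (s35pe_FL_adjoin_pair (M * q * ℓ))
      (m59pl_top_gen_beta M q ℓ) S h2 h1) f

include hℓ in
/-- **`α_q ∘ T_ℓ = T_ℓ ∘ α_q` on functions.** -/
theorem m59pl_T_alpha (hℓM : ¬ ℓ ∣ M * q) (f : Fbar M) :
    heckeAlphaBar Kbar M q (s44hr_T M ℓ f) = s44hr_T (M * q) ℓ (heckeAlphaBar Kbar M q f) := by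
  have hℓM' : ¬ ℓ ∣ M := fun h => hℓM (h.mul_right q)
  have h23 : s35pe_FL (M * q) ≤ s35pe_FL (M * q * ℓ) := s35pe_FL_mono (Dvd.intro ℓ rfl)
  rw [s44hr_T_apply, s44hr_T_apply, s35pe_alpha_eq M ℓ, s35pe_alpha_eq (M * q) ℓ,
    s35pe_alpha_eq M q, s35pe_inclusion_eq_res (s35pe_FL_mono (Dvd.intro q rfl)),
    s35pe_beta_eq M ℓ, s35pe_beta_eq (M * q) ℓ]
  exact m59pl_ambient (AlgHom.id Kbar (LaurentSeries Kbar)) (qExpandAlgHomC Kbar ℓ)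
    (fun _ => rfl)
    (s35pe_FL M) (s35pe_FL (M * ℓ)) (s35pe_FL (M * q)) (s35pe_FL (M * q * ℓ)) _ h23 _
    (fun _ hx => m59pl_le13 M q ℓ hx) _ _ (Nat.succ_pos ℓ)
    (s35pe_relfinrank_alpha ℓ hℓ M hℓM') (s35pe_relfinrank_alpha ℓ hℓ (M * q) hℓM)
    (fun S h2 h1 => m59pl_gen_alpha M q ℓ hℓ hℓM S h2 h1) f

end Levels

end Fermat.Agent.M59
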