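/-
M59 / Sink B, cell [PULL-API] (helper15).  Prefix `m59pl_`.

The pull-back `φ^* : Pic⁰(F) → Pic⁰(F')` along a finite homomorphism of function fields (twin of the
push-forward `s35p_pushPic0`, S35/PMaps.lean), and its action on Kummer representatives:

* `m59pl_pullDegZero φ hφ hFI`, `m59pl_pullPic0 φ hφ hFI : Pic0 K F →+ Pic0 K F'`, `m59pl_pullPic0_mk`;
* `m59pl_pullPic0_smul` : equivariance under intertwined semilinear automorphisms;
* `m59pl_pull_ord_mul` : `m D = div f ⟹ m (φ^* D) = div (φ f)`;
* `m59pl_mk_eq_of_ord` : two classes with the same Kummer datum `(m, f)`, `m ≠ 0`, are equal.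
-/
import Mathlib
import Fermat.Prelude.Def_AlgebraicCurve_Correspondence
import Fermat.Agent.S44.HeckeRes.KumCorr
import Fermat.Agent.JT3.ES.GaloisHecke

set_option autoImplicit false
set_option linter.unusedSectionVars false
set_option linter.style.haveILetI false

noncomputable section

namespace Fermat.Agent.M59

open AlgebraicCurve Fermat.Agent.S44 Fermat.Agent.JT3

section Pic0Pull

variable {K F F' : Type*} [Field K] [Field F] [Field F'] [Algebra K F] [Algebra K F']
  [HasPrincipalDivisors K F']
variable (φ : F →ₐ[K] F') (hφ : φ.toRingHom.IsIntegral) (hFI : FundamentalIdentityAlong K φ hφ)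

/-- pull-back of degree zero divisors -/
def m59pl_pullDegZero :
    Divisor.degZero (K := K) (F := F) →+ Divisor.degZero (K := K) (F := F') :=
  ((Divisor.pullbackAlong φ hφ).domRestrict (Divisor.degZero (K := K) (F := F))).codRestrict _
    (fun D => Divisor.pullbackAlong_mem_degZero φ hφ hFI D.2)

@[simp]
theorem m59pl_coe_pullDegZero (D : Divisor.degZero (K := K) (F := F)) :
    (m59pl_pullDegZero φ hφ hFI D : Divisor K F') = Divisor.pullbackAlong φ hφ (D : Divisor K F) :=
  rfl

/-- **pull-back of divisor classes of degree zero** -/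
def m59pl_pullPic0 : Pic0 K F →+ Pic0 K F' :=
  QuotientAddGroup.map _ _ (m59pl_pullDegZero φ hφ hFI) (by
    rintro ⟨D, hD0⟩ hD
    simp only [AddSubgroup.mem_addSubgroupOf] at hD ⊢
    exact Divisor.isPrincipal_pullbackAlong φ hφ hD)

theorem m59pl_pullPic0_mk (D : Divisor.degZero (K := K) (F := F)) :
    m59pl_pullPic0 φ hφ hFI (Pic0.mk D) = Pic0.mk (m59pl_pullDegZero φ hφ hFI D) :=
  rfl

/-- the pull-back is equivariant under intertwined semilinear automorphisms -/
theorem m59pl_pullPic0_smul {g : SemilinearAut K F} {g' : SemilinearAut K F'}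
    (h : SemilinearAut.IntertwinesAlong (φ : F →+* F') g g') (x : Pic0 K F) :
    m59pl_pullPic0 φ hφ hFI (g • x) = g' • m59pl_pullPic0 φ hφ hFI x := by
  obtain ⟨D, rfl⟩ := Pic0.mk_surjective x
  rw [SemilinearAut.pic0_smul_mk, m59pl_pullPic0_mk, m59pl_pullPic0_mk, SemilinearAut.pic0_smul_mk]
  congr 1
  apply Subtype.ext
  show Divisor.pullbackAlong φ hφ (g • (D : Divisor K F))
    = g' • Divisor.pullbackAlong φ hφ (D : Divisor K F)
  exact egh_pullbackAlong_smul hφ h _

/-- `m D = div f ⟹ m (φ^* D) = div (φ f)` -/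
theorem m59pl_pull_ord_mul {m : ℤ} {f : F} {D : Divisor K F}
    (hD : ∀ v : Place K F, m * D v = v.ord f) (w : Place K F') :
    m * Divisor.pullbackAlong φ hφ D w = w.ord (φ f) := by
  have h1 : ∀ v : Place K F, (m • D) v = v.ord f := fun v => by
    rw [Finsupp.smul_apply, smul_eq_mul]
    exact hD v
  rw [← s44hk_pullback_ord φ hφ h1 w, map_zsmul, Finsupp.smul_apply, smul_eq_mul]

end Pic0Pull

section Unique

variable {K F : Type*} [Field K] [Field F] [Algebra K F]

/-- two degree-zero divisors with the same Kummer datum `(m, f)`, `m ≠ 0`, are equal -/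
theorem m59pl_mk_eq_of_ord {m : ℤ} (hm : m ≠ 0) {f : F}
    {D D' : Divisor.degZero (K := K) (F := F)}
    (hD : ∀ v : Place K F, m * (D : Divisor K F) v = v.ord f)
    (hD' : ∀ v : Place K F, m * (D' : Divisor K F) v = v.ord f) : D = D' := by
  apply Subtype.ext
  apply Finsupp.ext
  intro v
  have h := (hD v).trans (hD' v).symm
  exact mul_left_cancel₀ hm h

end Unique

end Fermat.Agent.M59
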