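/-
M59 / Sink B, cell [PULL-API] (helper15).  Prefix `m59pl_`.

THE TWO PULL-BACKS `α_q^*, β_q^* : J₀(N) →+ J₀(N q)` (every level `N`, every `q ≠ 0`) AND THEIR API:

* `m59pl_pa N q`, `m59pl_pb N q : JZero N →+ JZero (N * q)` (pull-back of divisor classes along
  `heckeAlphaBar`, `heckeBetaBar`; `m59pl_pullPic0`);
* `m59pl_pa_rep`, `m59pl_pb_rep` : on Kummer representatives, `s44f_Rep N m u f ⟹
  s44f_Rep (N q) m (pa u) (α_q f)` resp. `(pb u) (β_q f)`, EVERY `m`;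
* `m59pl_pa_smul`, `m59pl_pb_smul` : Galois equivariance;
* `m59pl_rep_unique_class` : a class is determined by a Kummer datum `(m, f)`, `m ≠ 0`;
* **`m59pl_pa_hecke`, `m59pl_pb_hecke`** : `T_ℓ (pa u) = pa (T_ℓ u)`, `T_ℓ (pb u) = pb (T_ℓ u)` for every
  prime `ℓ ∤ N q` and every TORSION class `u` (`n • u = 0`, `n ≠ 0`): function identities
  `m59pl_T_alpha`, `m59pl_T_beta` + `s44hr_rep_hecke`;
* `m59pl_pullApiOf` : the level-2 cell `m59sb_PullApiOf p (pa) (pb)` of `SinkB/Frame.lean` at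
  `(N', q)`.
-/
import Mathlib
import Fermat.Agent.M59.SinkB.PullApi.Pic0
import Fermat.Agent.M59.SinkB.PullApi.Norm
import Fermat.Agent.S44.Bridge.Rep
import Fermat.Agent.M59.SinkB.Frame

set_option autoImplicit false
set_option linter.unusedSectionVars false
set_option linter.unusedVariables false
set_option linter.style.haveILetI false
set_option synthInstance.maxHeartbeats 400000
set_option maxHeartbeats 1000000

noncomputable section

namespace Fermat.Agent.M59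

open AlgebraicCurve ModularCurve Module
open Fermat.Agent.S24 Fermat.Agent.JT3 Fermat.Agent.SS Fermat.Agent.S35 Fermat.Agent.S44

section Maps

variable (N q : ℕ) [NeZero N] [NeZero q]

/-- `α_q^* : J₀(N) → J₀(N q)` -/
def m59pl_pa : JZero N →+ JZero (N * q) :=
  m59pl_pullPic0 (heckeAlphaBar Kbar N q) (hib_alphaIntegral N q)
    (hib_fundamentalIdentityAlong_alpha N q)

/-- `β_q^* : J₀(N) → J₀(N q)` -/
def m59pl_pb : JZero N →+ JZero (N * q) :=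
  m59pl_pullPic0 (heckeBetaBar Kbar N q) (hib_betaIntegral N q)
    (hib_fundamentalIdentityAlong_beta N q)

/-- `α_q^*` on Kummer representatives -/
theorem m59pl_pa_rep (m : ℕ) (u : JZero N) (f : Fbar N) (h : s44f_Rep N m u f) :
    s44f_Rep (N * q) m (m59pl_pa N q u) (heckeAlphaBar Kbar N q f) := by
  obtain ⟨hf0, D, hDu, hD⟩ := h
  refine ⟨(map_ne_zero _).mpr hf0, m59pl_pullDegZero (heckeAlphaBar Kbar N q)
    (hib_alphaIntegral N q) (hib_fundamentalIdentityAlong_alpha N q) D, ?_, fun w => ?_⟩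
  · rw [← hDu]
    rfl
  · exact m59pl_pull_ord_mul (heckeAlphaBar Kbar N q) (hib_alphaIntegral N q) hD w

/-- `β_q^*` on Kummer representatives -/
theorem m59pl_pb_rep (m : ℕ) (u : JZero N) (f : Fbar N) (h : s44f_Rep N m u f) :
    s44f_Rep (N * q) m (m59pl_pb N q u) (heckeBetaBar Kbar N q f) := by
  obtain ⟨hf0, D, hDu, hD⟩ := h
  refine ⟨(map_ne_zero _).mpr hf0, m59pl_pullDegZero (heckeBetaBar Kbar N q)
    (hib_betaIntegral N q) (hib_fundamentalIdentityAlong_beta N q) D, ?_, fun w => ?_⟩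
  · rw [← hDu]
    rfl
  · exact m59pl_pull_ord_mul (heckeBetaBar Kbar N q) (hib_betaIntegral N q) hD w

local notation "GQ" => (AlgebraicClosure ℚ ≃ₐ[ℚ] AlgebraicClosure ℚ)

/-- `α_q^*` is Galois equivariant -/
theorem m59pl_pa_smul (σ : GQ) (x : JZero N) :
    m59pl_pa N q (σ • x) = σ • m59pl_pa N q x :=
  m59pl_pullPic0_smul _ _ _ (egh_intertwines_alpha N q σ) x

/-- `β_q^*` is Galois equivariant -/
theorem m59pl_pb_smul (σ : GQ) (x : JZero N) :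
    m59pl_pb N q (σ • x) = σ • m59pl_pb N q x :=
  m59pl_pullPic0_smul _ _ _ (egh_intertwines_beta N q σ) x

end Maps

section Unique

variable {N : ℕ}

/-- a class is determined by a Kummer datum `(m, f)`, `m ≠ 0` -/
theorem m59pl_rep_unique_class {m : ℕ} (hm : m ≠ 0) {z z' : JZero N} {f : Fbar N}
    (h : s44f_Rep N m z f) (h' : s44f_Rep N m z' f) : z = z' := by
  obtain ⟨_, D, hD, hDv⟩ := h
  obtain ⟨_, D', hD', hD'v⟩ := h'
  rw [← hD, ← hD', m59pl_mk_eq_of_ord (Nat.cast_ne_zero.mpr hm) hDv hD'v]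

end Unique

section Hecke

variable (N q ℓ : ℕ) [NeZero N] [NeZero q]

/-- **`T_ℓ ∘ α_q^* = α_q^* ∘ T_ℓ` on torsion classes**, `ℓ ∤ N q` prime. -/
theorem m59pl_pa_hecke (hℓ : ℓ.Prime) (hℓN : ¬ ℓ ∣ N * q) (u : JZero N)
    (hu : ∃ n : ℕ, n ≠ 0 ∧ n • u = 0) :
    heckeOperatorBar (N * q) ⟨ℓ, hℓ⟩ (m59pl_pa N q u) =
      m59pl_pa N q (heckeOperatorBar N ⟨ℓ, hℓ⟩ u) := by
  haveI : NeZero ℓ := ⟨hℓ.ne_zero⟩
  obtain ⟨n, hn0, hnu⟩ := hu
  obtain ⟨f, hf⟩ := s44b_rep_exists (N := N) (p := n) hnu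
  have h1 := s44hr_rep_hecke (N * q) n ⟨ℓ, hℓ⟩ _ _ (m59pl_pa_rep N q n u f hf)
  have h2 := m59pl_pa_rep N q n _ _ (s44hr_rep_hecke N n ⟨ℓ, hℓ⟩ u f hf)
  have h3 : heckeAlphaBar Kbar N q (s44hr_T N ℓ f) =
      s44hr_T (N * q) ℓ (heckeAlphaBar Kbar N q f) := m59pl_T_alpha N q ℓ hℓ hℓN f
  have h2' : s44f_Rep (N * q) n (m59pl_pa N q (heckeOperatorBar N ⟨ℓ, hℓ⟩ u))
      (s44hr_T (N * q) ℓ (heckeAlphaBar Kbar N q f)) := by
    rw [← h3]
    exact h2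
  exact m59pl_rep_unique_class hn0 h1 h2'

/-- **`T_ℓ ∘ β_q^* = β_q^* ∘ T_ℓ` on torsion classes**, `ℓ ∤ N q` prime. -/
theorem m59pl_pb_hecke (hℓ : ℓ.Prime) (hℓN : ¬ ℓ ∣ N * q) (u : JZero N)
    (hu : ∃ n : ℕ, n ≠ 0 ∧ n • u = 0) :
    heckeOperatorBar (N * q) ⟨ℓ, hℓ⟩ (m59pl_pb N q u) =
      m59pl_pb N q (heckeOperatorBar N ⟨ℓ, hℓ⟩ u) := by
  haveI : NeZero ℓ := ⟨hℓ.ne_zero⟩
  obtain ⟨n, hn0, hnu⟩ := hu
  obtain ⟨f, hf⟩ := s44b_rep_exists (N := N) (p := n) hnu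
  have h1 := s44hr_rep_hecke (N * q) n ⟨ℓ, hℓ⟩ _ _ (m59pl_pb_rep N q n u f hf)
  have h2 := m59pl_pb_rep N q n _ _ (s44hr_rep_hecke N n ⟨ℓ, hℓ⟩ u f hf)
  have h3 : heckeBetaBar Kbar N q (s44hr_T N ℓ f) =
      s44hr_T (N * q) ℓ (heckeBetaBar Kbar N q f) := m59pl_T_beta N q ℓ hℓ hℓN f
  have h2' : s44f_Rep (N * q) n (m59pl_pb N q (heckeOperatorBar N ⟨ℓ, hℓ⟩ u))
      (s44hr_T (N * q) ℓ (heckeBetaBar Kbar N q f)) := by
    rw [← h3]
    exact h2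
  exact m59pl_rep_unique_class hn0 h1 h2'

end Hecke

section Cell

variable (N' q p : ℕ) [NeZero N'] [NeZero q] [hp : Fact p.Prime]

/-- **the level-2 cell [PULL-API] of `SinkB/Frame.lean`** for the two pull-backs
`J₀(N' q) → J₀(N' q q)`. -/
theorem m59pl_pullApiOf : m59sb_PullApiOf (N' := N') (q := q) p (m59pl_pa (N' * q) q)
    (m59pl_pb (N' * q) q) := by
  intro ℓ hℓ hℓN x hx
  have hx' : ∃ n : ℕ, n ≠ 0 ∧ n • x = 0 := by
    obtain ⟨n, hn⟩ := hx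
    exact ⟨p ^ n, pow_ne_zero n hp.out.ne_zero, hn⟩
  exact ⟨(m59pl_pa_hecke (N' * q) q ℓ hℓ hℓN x hx').symm,
    (m59pl_pb_hecke (N' * q) q ℓ hℓ hℓN x hx').symm⟩

end Cell

end Fermat.Agent.M59
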