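/-
M59 / Sink B, cell [PULL-API] (helper15): THE SEAM `m59sb_Pull_stmt` OF `SinkB/Defs.lean` IS A THEOREM.
Prefix `m59pl_`.

`m59pl_pullPkg N' q : m59sb_Pull N' q` (the package on the concrete maps `m59pl_pa (N' * q) q`,
`m59pl_pb (N' * q) q`), `m59pl_pull : m59sb_Pull_stmt`.
-/
import Mathlib
import Fermat.Agent.M59.SinkB.Defs
import Fermat.Agent.M59.SinkB.PullApi.Main

set_option autoImplicit false
set_option linter.unusedSectionVars false
set_option linter.unusedVariables false
set_option synthInstance.maxHeartbeats 400000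
set_option maxHeartbeats 1000000

noncomputable section

namespace Fermat.Agent.M59

open Fermat.Agent.JT3 ModularCurve

/-- the pull-back package on the concrete maps -/
def m59pl_pullPkg (N' q : ℕ) [NeZero N'] [NeZero q] [NeZero (N' * q)] [NeZero (N' * q * q)] :
    m59sb_Pull N' q where
  pa := m59pl_pa (N' * q) q
  pb := m59pl_pb (N' * q) q
  pa_rep := fun m u f h => m59pl_pa_rep (N' * q) q m u f h
  pb_rep := fun m u f h => m59pl_pb_rep (N' * q) q m u f h
  pa_hecke := fun ℓ hℓ hℓN u hu => m59pl_pa_hecke (N' * q) q ℓ hℓ hℓN u hu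
  pb_hecke := fun ℓ hℓ hℓN u hu => m59pl_pb_hecke (N' * q) q ℓ hℓ hℓN u hu

theorem m59pl_pullPkg_pa (N' q : ℕ) [NeZero N'] [NeZero q] [NeZero (N' * q)]
    [NeZero (N' * q * q)] : (m59pl_pullPkg N' q).pa = m59pl_pa (N' * q) q := rfl

theorem m59pl_pullPkg_pb (N' q : ℕ) [NeZero N'] [NeZero q] [NeZero (N' * q)]
    [NeZero (N' * q * q)] : (m59pl_pullPkg N' q).pb = m59pl_pb (N' * q) q := rfl

/-- **[PULL-API] closed**: the seam of `SinkB/Defs.lean`. -/
theorem m59pl_pull : m59sb_Pull_stmt := by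
  intro N' q _ _ _ _ _
  exact ⟨m59pl_pullPkg N' q⟩

end Fermat.Agent.M59
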